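import Mathlib
import Fermat.Agent.S53.PSEval
import Fermat.Agent.S53.PSComplete
import Fermat.Agent.S53_helper84.CotangentCount

set_option autoImplicit false
set_option linter.style.haveILetI false
set_option linter.unusedSectionVars false

/-!
# GP/Alg/TangentSurj (helper6): the algebra end of S56

`R` a complete noetherian local `𝒪`-algebra with residue field `k = 𝒪/λ` (the instance fields of
`GaloisRep.DeformationRingData`).

* (A) `exists_surjective_of_span`: if `x₁ … x_r ∈ 𝔪_R` generate `𝔪_R` modulo `λR + 𝔪_R²`, then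
  `X i ↦ x i` extends to a SURJECTIVE `𝒪`-algebra hom `𝒪⟦X₁ … X_r⟧ → R`.
* (B) `exists_span_of_injective`: if the `𝒪`-algebra homs `R → k[ε]` inject into a set of
  cardinality `≤ |k|^r`, such `x₁ … x_r` exist.
* (C) `exists_surjective_of_injective`: the combination.
-/

namespace Fermat.Agent.GP.Alg

open IsLocalRing MvPowerSeries Function

section A

variable {𝒪 : Type} [CommRing 𝒪] [IsLocalRing 𝒪] [IsNoetherianRing 𝒪]
  [IsAdicComplete (maximalIdeal 𝒪) 𝒪]
  {R : Type} [CommRing R] [IsLocalRing R] [IsNoetherianRing R]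
  [IsAdicComplete (maximalIdeal R) R] [Algebra 𝒪 R] [IsLocalHom (algebraMap 𝒪 R)]

/-- the ideal `λR` -/
abbrev lamR (𝒪 : Type) [CommRing 𝒪] [IsLocalRing 𝒪] (R : Type) [CommRing R] [Algebra 𝒪 R] :
    Ideal R :=
  (maximalIdeal 𝒪).map (algebraMap 𝒪 R)

omit [IsNoetherianRing 𝒪] [IsAdicComplete (maximalIdeal 𝒪) 𝒪] [IsNoetherianRing R]
  [IsAdicComplete (maximalIdeal R) R] in
theorem lamR_le : lamR 𝒪 R ≤ maximalIdeal R := by
  rw [lamR, Ideal.map_le_iff_le_comap]
  intro a ha
  rw [Ideal.mem_comap]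
  exact map_nonunit (algebraMap 𝒪 R) a ha

/-- (A) generators of the relative cotangent space give a surjection from the power series ring. -/
theorem exists_surjective_of_span
    (hres : Surjective (residue R ∘ algebraMap 𝒪 R)) {r : ℕ} (x : Fin r → R)
    (hx : ∀ i, x i ∈ maximalIdeal R)
    (hspan : maximalIdeal R ≤ Ideal.span (Set.range x) ⊔ lamR 𝒪 R ⊔ maximalIdeal R ^ 2) :
    ∃ γ : MvPowerSeries (Fin r) 𝒪 →ₐ[𝒪] R, (∀ i, γ (X i) = x i) ∧ Surjective γ := by
  obtain ⟨γ, hγ⟩ := Fermat.Agent.S53.exists_algHom_X (𝒪 := 𝒪) x hx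
  refine ⟨γ, hγ, ?_⟩
  -- Nakayama: `𝔪_R = (x) + λR`
  have hmN : maximalIdeal R ≤ Ideal.span (Set.range x) ⊔ lamR 𝒪 R := by
    apply Submodule.le_of_le_smul_of_le_jacobson_bot (I := maximalIdeal R)
      (IsNoetherian.noetherian _) (IsLocalRing.maximalIdeal_le_jacobson ⊥)
    rw [smul_eq_mul, ← pow_two]
    exact hspan
  haveI hA : IsAdicComplete (maximalIdeal (MvPowerSeries (Fin r) 𝒪)) (MvPowerSeries (Fin r) 𝒪) :=
    Fermat.Agent.S53.isAdicComplete_mvPowerSeries 𝒪 (Fin r)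
  have hγX : ∀ s, γ (X s) ∈ maximalIdeal R := fun s => by rw [hγ s]; exact hx s
  have hCalg : ∀ a : 𝒪, γ (C a) = algebraMap 𝒪 R a := fun a => by
    have := γ.commutes a
    rwa [MvPowerSeries.algebraMap_apply, Algebra.algebraMap_self, RingHom.id_apply] at this
  have hmap : (maximalIdeal (MvPowerSeries (Fin r) 𝒪)).map
      (γ : MvPowerSeries (Fin r) 𝒪 →+* R) = maximalIdeal R := by
    apply le_antisymm
    · rw [Ideal.map_le_iff_le_comap]
      intro f hf
      rw [Ideal.mem_comap]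
      -- `f = (f - trunc) + trunc`
      have h1 := Fermat.Agent.S53.algHom_mem_pow_of_mem_psVars_pow γ hγX
        (Fermat.Agent.S53.sub_truncTotal_mem_psVars_pow 1 f)
      rw [pow_one, map_sub] at h1
      have h2 : γ ((truncTotal 1 f : MvPolynomial (Fin r) 𝒪) : MvPowerSeries (Fin r) 𝒪) ∈
          maximalIdeal R := by
        have hc : (truncTotal 1 f : MvPolynomial (Fin r) 𝒪) =
            MvPolynomial.C (constantCoeff f) := by
          ext d
          rw [MvPowerSeries.coeff_truncTotal_eq_ite, MvPolynomial.coeff_C]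
          by_cases hd : d = 0
          · subst hd; simp
          · have : ¬ d.degree < 1 := by
              rw [Nat.lt_one_iff, Finsupp.degree_eq_zero_iff]; exact hd
            rw [if_neg this, if_neg (Ne.symm hd)]
        rw [hc, MvPolynomial.coe_C, hCalg]
        exact lamR_le (Ideal.mem_map_of_mem _
          ((Fermat.Agent.S53.PSC.mem_maximalIdeal_iff 𝒪 (Fin r) f).mp hf))
      have h3 : γ f = (γ f - γ ((truncTotal 1 f : MvPolynomial (Fin r) 𝒪) :
          MvPowerSeries (Fin r) 𝒪)) + γ ((truncTotal 1 f : MvPolynomial (Fin r) 𝒪) :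
          MvPowerSeries (Fin r) 𝒪) := by ring
      show γ f ∈ maximalIdeal R
      rw [h3]
      exact add_mem h1 h2
    · refine hmN.trans (sup_le ?_ ?_)
      · rw [Ideal.span_le]
        rintro _ ⟨i, rfl⟩
        rw [← hγ i]
        exact Ideal.mem_map_of_mem _ (Fermat.Agent.S53.PSC.X_mem 𝒪 (Fin r) i)
      · rw [lamR, Ideal.map_le_iff_le_comap]
        intro a ha
        rw [Ideal.mem_comap, ← hCalg a]
        exact Ideal.mem_map_of_mem (γ : MvPowerSeries (Fin r) 𝒪 →+* R)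
          (Fermat.Agent.S53.PSC.map_C_le 𝒪 (Fin r) (Ideal.mem_map_of_mem _ ha))
  haveI : IsHausdorff ((maximalIdeal (MvPowerSeries (Fin r) 𝒪)).map
      (γ : MvPowerSeries (Fin r) 𝒪 →+* R)) R := by
    rw [hmap]; infer_instance
  have hsurj : Surjective (γ : MvPowerSeries (Fin r) 𝒪 →+* R) := by
    apply surjective_of_mk_map_comp_surjective
      (I := maximalIdeal (MvPowerSeries (Fin r) 𝒪)) (γ : MvPowerSeries (Fin r) 𝒪 →+* R)
    intro y
    obtain ⟨y, rfl⟩ := Ideal.Quotient.mk_surjective y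
    obtain ⟨a, ha⟩ := hres (residue R y)
    refine ⟨C a, ?_⟩
    rw [RingHom.comp_apply, Ideal.Quotient.eq, hmap]
    show γ (C a) - y ∈ maximalIdeal R
    rw [hCalg, ← residue_eq_zero_iff, map_sub, sub_eq_zero]
    exact ha
  exact hsurj

end A

section B

open Fermat.Agent.S53_helper84

variable {𝒪 : Type} [CommRing 𝒪] [IsLocalRing 𝒪] [Finite (ResidueField 𝒪)]
  {R : Type} [CommRing R] [IsLocalRing R] [IsNoetherianRing R]
  [Algebra 𝒪 R] [IsLocalHom (algebraMap 𝒪 R)]

/-- the ideal `λR + 𝔪_R²` -/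
abbrev tanIdeal (𝒪 : Type) [CommRing 𝒪] [IsLocalRing 𝒪] (R : Type) [CommRing R] [IsLocalRing R]
    [Algebra 𝒪 R] : Ideal R :=
  lamR 𝒪 R ⊔ maximalIdeal R ^ 2

omit [Finite (ResidueField 𝒪)] [IsNoetherianRing R] in
theorem tanIdeal_le : tanIdeal 𝒪 R ≤ maximalIdeal R :=
  sup_le lamR_le (Ideal.pow_le_self two_ne_zero)

omit [Finite (ResidueField 𝒪)] [IsNoetherianRing R] in
theorem tanIdeal_ne_top : tanIdeal 𝒪 R ≠ ⊤ := fun h =>
  (maximalIdeal.isMaximal R).ne_top (top_le_iff.mp (h ▸ tanIdeal_le))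

/-- (B) If the `𝒪`-algebra homs `R → k[ε]` inject into a set with at most `|k|^r` elements, then
`𝔪_R` is generated by `r` elements modulo `λR + 𝔪_R²`. -/
theorem exists_span_of_injective
    (hres : Surjective (residue R ∘ algebraMap 𝒪 R)) {r : ℕ} {T : Type*} [Finite T]
    (ι : (R →ₐ[𝒪] DualNumber (ResidueField 𝒪)) → T) (hι : Injective ι)
    (hT : Nat.card T ≤ Nat.card (ResidueField 𝒪) ^ r) :
    ∃ x : Fin r → R, (∀ i, x i ∈ maximalIdeal R) ∧
      maximalIdeal R ≤ Ideal.span (Set.range x) ⊔ lamR 𝒪 R ⊔ maximalIdeal R ^ 2 := by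
  classical
  -- the first order quotient `B`
  set J : Ideal R := tanIdeal 𝒪 R with hJ
  have hJm : J ≤ maximalIdeal R := tanIdeal_le
  haveI : Nontrivial (R ⧸ J) := Ideal.Quotient.nontrivial_iff.mpr tanIdeal_ne_top
  haveI : IsLocalRing (R ⧸ J) :=
    IsLocalRing.of_surjective' (Ideal.Quotient.mk J) Ideal.Quotient.mk_surjective
  haveI hmkloc : IsLocalHom (Ideal.Quotient.mk J) :=
    IsLocalHom.of_surjective (Ideal.Quotient.mk J) Ideal.Quotient.mk_surjective
  have halg : ∀ a : 𝒪, algebraMap 𝒪 (R ⧸ J) a = Ideal.Quotient.mk J (algebraMap 𝒪 R a) :=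
    fun a => rfl
  have hmB : ∀ z : R, Ideal.Quotient.mk J z ∈ maximalIdeal (R ⧸ J) ↔ z ∈ maximalIdeal R := by
    intro z
    rw [mem_maximalIdeal, mem_maximalIdeal, mem_nonunits_iff, mem_nonunits_iff,
      isUnit_map_iff (Ideal.Quotient.mk J)]
  have hloc : IsLocalHom (algebraMap 𝒪 (R ⧸ J)) := by
    refine ⟨fun a ha => ?_⟩
    rw [halg] at ha
    exact (isUnit_map_iff (algebraMap 𝒪 R) a).mp ((isUnit_map_iff (Ideal.Quotient.mk J) _).mp ha)
  have hresB : Surjective (residue (R ⧸ J) ∘ algebraMap 𝒪 (R ⧸ J)) := by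
    intro y
    obtain ⟨y, rfl⟩ := residue_surjective y
    obtain ⟨z, rfl⟩ := Ideal.Quotient.mk_surjective y
    obtain ⟨a, ha⟩ := hres (residue R z)
    refine ⟨a, ?_⟩
    rw [Function.comp_apply] at ha ⊢
    rw [← sub_eq_zero, ← map_sub, residue_eq_zero_iff] at ha ⊢
    rw [halg, ← map_sub, hmB]
    exact ha
  have hm : ∀ a ∈ maximalIdeal 𝒪, algebraMap 𝒪 (R ⧸ J) a = 0 := by
    intro a ha
    rw [halg, Ideal.Quotient.eq_zero_iff_mem]
    exact le_sup_left (a := lamR 𝒪 R) (Ideal.mem_map_of_mem _ ha)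
  have hsq : maximalIdeal (R ⧸ J) ^ 2 = ⊥ := by
    rw [eq_bot_iff, pow_two, Ideal.mul_le]
    intro u hu v hv
    obtain ⟨u, rfl⟩ := Ideal.Quotient.mk_surjective u
    obtain ⟨v, rfl⟩ := Ideal.Quotient.mk_surjective v
    rw [hmB] at hu hv
    rw [Ideal.mem_bot, ← map_mul, Ideal.Quotient.eq_zero_iff_mem]
    refine le_sup_right (a := lamR 𝒪 R) ?_
    rw [pow_two]
    exact Ideal.mul_mem_mul hu hv
  haveI : Finite (ResidueField R) := by
    have : Surjective (ResidueField.map (algebraMap 𝒪 R)) := by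
      intro y
      obtain ⟨a, ha⟩ := hres y
      exact ⟨residue 𝒪 a, ha⟩
    exact Finite.of_surjective _ this
  haveI : Finite (R ⧸ J) := IsLocalRing.finite_quotient_iff.mpr ⟨2, le_sup_right⟩
  -- `B` as a `k`-vector space
  letI : Algebra (ResidueField 𝒪) (R ⧸ J) := (sectK hm).toAlgebra
  have hsmul : ∀ (c : ResidueField 𝒪) (b : R ⧸ J), c • b = sectK hm c * b :=
    fun c b => Algebra.smul_def c b
  set V : Submodule (ResidueField 𝒪) (R ⧸ J) :=
    (maximalIdeal (R ⧸ J)).restrictScalars (ResidueField 𝒪) with hV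
  have hVmem : ∀ b : R ⧸ J, b ∈ V ↔ b ∈ maximalIdeal (R ⧸ J) := fun b => Iff.rfl
  -- the tangent vectors
  have hext : ∀ g : Module.Dual (ResidueField 𝒪) V,
      ∃ f : (R ⧸ J) →ₗ[ResidueField 𝒪] ResidueField 𝒪, f.comp V.subtype = g :=
    fun g => LinearMap.exists_extend g
  choose ext hextg using hext
  have hl : ∀ (g : Module.Dual (ResidueField 𝒪) V) (c : ResidueField 𝒪) (b : R ⧸ J),
      (ext g).toAddMonoidHom (sectK hm c * b) = c * (ext g).toAddMonoidHom b := fun g c b => by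
    rw [← hsmul]; exact (ext g).map_smul c b
  let Φ : Module.Dual (ResidueField 𝒪) V → (R →ₐ[𝒪] DualNumber (ResidueField 𝒪)) := fun g =>
    (tangentHom hloc hresB hm hsq (ext g).toAddMonoidHom (hl g)).comp (Ideal.Quotient.mkₐ 𝒪 J)
  have hΦ : ∀ (g : Module.Dual (ResidueField 𝒪) V) (z : R) (hz : z ∈ maximalIdeal R),
      Φ g z = TrivSqZeroExt.inr (g ⟨Ideal.Quotient.mk J z, (hVmem _).mpr ((hmB z).mpr hz)⟩) := by
    intro g z hz
    show tangentHom hloc hresB hm hsq (ext g).toAddMonoidHom (hl g) (Ideal.Quotient.mk J z) = _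
    rw [tangentHom_apply_of_mem hloc hresB hm hsq _ _ ((hmB z).mpr hz)]
    congr 1
    have := congrArg (fun φ : V →ₗ[ResidueField 𝒪] ResidueField 𝒪 =>
      φ ⟨Ideal.Quotient.mk J z, (hVmem _).mpr ((hmB z).mpr hz)⟩) (hextg g)
    simpa using this
  have hΦinj : Injective Φ := by
    intro g g' hgg
    apply LinearMap.ext
    rintro ⟨v, hv⟩
    obtain ⟨z, rfl⟩ := Ideal.Quotient.mk_surjective v
    have hz : z ∈ maximalIdeal R := (hmB z).mp ((hVmem _).mp hv)
    have h1 := hΦ g z hz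
    have h2 := hΦ g' z hz
    rw [hgg] at h1
    exact TrivSqZeroExt.inr_injective (h1.symm.trans h2)
  -- the dimension count
  have hcard : Nat.card (Module.Dual (ResidueField 𝒪) V) =
      Nat.card (ResidueField 𝒪) ^ Module.finrank (ResidueField 𝒪) V := by
    rw [Module.natCard_eq_pow_finrank (K := ResidueField 𝒪), Subspace.dual_finrank_eq]
  have hle : Nat.card (ResidueField 𝒪) ^ Module.finrank (ResidueField 𝒪) V ≤
      Nat.card (ResidueField 𝒪) ^ r := by
    rw [← hcard]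
    exact (Nat.card_le_card_of_injective _ (hι.comp hΦinj)).trans hT
  have hk : 1 < Nat.card (ResidueField 𝒪) := Finite.one_lt_card
  have hdr : Module.finrank (ResidueField 𝒪) V ≤ r := (Nat.pow_le_pow_iff_right hk).mp hle
  -- a basis of `V`, padded to `r` elements and lifted to `R`
  let bV := Module.finBasis (ResidueField 𝒪) V
  let y : Fin r → V := fun i =>
    if h : i.val < Module.finrank (ResidueField 𝒪) V then bV ⟨i.val, h⟩ else 0
  have hlift : ∀ i : Fin r, ∃ z : R, Ideal.Quotient.mk J z = (y i : R ⧸ J) :=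
    fun i => Ideal.Quotient.mk_surjective _
  choose x hxy using hlift
  have hxm : ∀ i, x i ∈ maximalIdeal R := fun i => by
    rw [← hmB, hxy]; exact (hVmem _).mp (y i).2
  refine ⟨x, hxm, ?_⟩
  intro z hz
  -- expand the class of `z` in the basis
  set v : V := ⟨Ideal.Quotient.mk J z, (hVmem _).mpr ((hmB z).mpr hz)⟩ with hv
  have hrepr := bV.sum_repr v
  have hlifta : ∀ j : Fin (Module.finrank (ResidueField 𝒪) V),
      ∃ a : 𝒪, residue 𝒪 a = bV.repr v j := fun j => residue_surjective _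
  choose a ha using hlifta
  set w : R := ∑ j : Fin (Module.finrank (ResidueField 𝒪) V),
    algebraMap 𝒪 R (a j) * x (Fin.castLE hdr j) with hw
  have hwspan : w ∈ Ideal.span (Set.range x) :=
    Ideal.sum_mem _ fun j _ => Ideal.mul_mem_left _ _ (Ideal.subset_span ⟨_, rfl⟩)
  have hmkw : Ideal.Quotient.mk J w = Ideal.Quotient.mk J z := by
    have h1 : ((∑ j, bV.repr v j • bV j : V) : R ⧸ J) = Ideal.Quotient.mk J z := by
      rw [hrepr]
    rw [← h1, hw, map_sum, Submodule.coe_sum]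
    refine Finset.sum_congr rfl fun j _ => ?_
    rw [map_mul, hxy, Submodule.coe_smul, hsmul, ← ha j, sectK_residue, halg]
    congr 2
    have hj : (Fin.castLE hdr j).val < Module.finrank (ResidueField 𝒪) V := j.2
    simp only [y, dif_pos hj]
    rfl
  have hzw : z - w ∈ J := by
    rw [← Ideal.Quotient.eq, hmkw]
  have : z = w + (z - w) := by ring
  rw [this, sup_assoc]
  exact Ideal.add_mem _ (Ideal.mem_sup_left hwspan) (Ideal.mem_sup_right hzw)

end B

section C

variable {𝒪 : Type} [CommRing 𝒪] [IsLocalRing 𝒪] [IsNoetherianRing 𝒪]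
  [IsAdicComplete (maximalIdeal 𝒪) 𝒪] [Finite (ResidueField 𝒪)]
  {R : Type} [CommRing R] [IsLocalRing R] [IsNoetherianRing R]
  [IsAdicComplete (maximalIdeal R) R] [Algebra 𝒪 R] [IsLocalHom (algebraMap 𝒪 R)]

/-- (C) A complete noetherian local `𝒪`-algebra with residue field `k` whose `𝒪`-algebra homs to
`k[ε]` inject into a set with at most `|k|^r` elements is a quotient of `𝒪⟦X₁, …, X_r⟧`. -/
theorem exists_surjective_of_injective
    (hres : Surjective (residue R ∘ algebraMap 𝒪 R)) {r : ℕ} {T : Type*} [Finite T]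
    (ι : (R →ₐ[𝒪] DualNumber (ResidueField 𝒪)) → T) (hι : Injective ι)
    (hT : Nat.card T ≤ Nat.card (ResidueField 𝒪) ^ r) :
    ∃ γ : MvPowerSeries (Fin r) 𝒪 →ₐ[𝒪] R, Surjective γ := by
  obtain ⟨x, hx, hspan⟩ := exists_span_of_injective hres ι hι hT
  obtain ⟨γ, -, hγ⟩ := exists_surjective_of_span hres x hx hspan
  exact ⟨γ, hγ⟩

/-- (C'), vector space form: the tangent vectors inject `k`-... into a `k`-vector space of
dimension `≤ r` (only the cardinality is used). -/
theorem exists_surjective_of_injective_finrank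
    (hres : Surjective (residue R ∘ algebraMap 𝒪 R)) {r : ℕ}
    {W : Type*} [AddCommGroup W] [Module (ResidueField 𝒪) W] [Module.Finite (ResidueField 𝒪) W]
    (hW : Module.finrank (ResidueField 𝒪) W ≤ r)
    (ι : (R →ₐ[𝒪] DualNumber (ResidueField 𝒪)) → W) (hι : Injective ι) :
    ∃ γ : MvPowerSeries (Fin r) 𝒪 →ₐ[𝒪] R, Surjective γ := by
  haveI : Finite W := Module.finite_of_finite (ResidueField 𝒪)
  refine exists_surjective_of_injective hres ι hι ?_
  rw [Module.natCard_eq_pow_finrank (K := ResidueField 𝒪)]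
  exact Nat.pow_le_pow_right Nat.card_pos hW

end C

section D

variable {𝒪 : Type} [CommRing 𝒪] [IsDomain 𝒪] [IsDiscreteValuationRing 𝒪]
  [IsAdicComplete (maximalIdeal 𝒪) 𝒪] [Finite (ResidueField 𝒪)]
  {ρbar : ResidualGaloisRep (ResidueField 𝒪)}
  {𝒟 : ∀ ⦃A : Type⦄ [CommRing A] [IsLocalRing A] [Algebra 𝒪 A], GaloisRepAdic A → Prop}

/-- (D) The conclusion of both conjuncts of S56 at `R := DQ.R`: if the tangent vectors
`DQ.R →ₐ[𝒪] k[ε]` inject into a set with at most `|k|^r` elements, then `DQ.R` is a quotient of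
`𝒪⟦X₁, …, X_r⟧`. -/
theorem exists_surjective_of_deformationRingData
    (DQ : GaloisRep.DeformationRingData 𝒪 ρbar 𝒟) {r : ℕ} {T : Type*} [Finite T]
    (ι : (DQ.R →ₐ[𝒪] DualNumber (ResidueField 𝒪)) → T) (hι : Injective ι)
    (hT : Nat.card T ≤ Nat.card (ResidueField 𝒪) ^ r) :
    ∃ γ : MvPowerSeries (Fin r) 𝒪 →ₐ[𝒪] DQ.R, Surjective γ :=
  exists_surjective_of_injective DQ.residue_surjective ι hι hT

/-- (D'), vector space form. -/
theorem exists_surjective_of_deformationRingData_finrank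
    (DQ : GaloisRep.DeformationRingData 𝒪 ρbar 𝒟) {r : ℕ}
    {W : Type*} [AddCommGroup W] [Module (ResidueField 𝒪) W] [Module.Finite (ResidueField 𝒪) W]
    (hW : Module.finrank (ResidueField 𝒪) W ≤ r)
    (ι : (DQ.R →ₐ[𝒪] DualNumber (ResidueField 𝒪)) → W) (hι : Injective ι) :
    ∃ γ : MvPowerSeries (Fin r) 𝒪 →ₐ[𝒪] DQ.R, Surjective γ :=
  exists_surjective_of_injective_finrank DQ.residue_surjective hW ι hι

end D

end Fermat.Agent.GP.Alg
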